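import Fermat.Agent.Ribet.H937.GRSurj
import Fermat.Agent.Lib.RR.H80.Res.ModularGenus
import Fermat.Agent.S36.H29.Gen
import Fermat.Agent.S36.Eng.Spec

/-!
# Row S59, cell (C) LO-SQ, wall leaf W-COUNT, sub-leaf **COUNT-NUM** (helper140)

The NUMERIC inputs of the all-`n` count at level `q M` (`q ∤ M`, `M` neat), J-form, for the
abstract counts (`count_family505`, `countTower`, ...):

* `card_torsion_jZero_pow140`  : `#J₀(N)(ℚ̄)[p^n] = p^(2 g n)`, `g = genusFF ℚ̄ ℚ̄(X₀(N))`;
* `card_torsion_jZeroC_pow140` : `#Pic⁰(k(X₀(M)))[p^n] = p^(2 g₀ n)`, `k` the residue field of a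
  place `A` of `ℚ̄` over `q ∤ M p`, `g₀ = genusFF k k(X₀(M))`;
* `card_torsion_pair_pow140`   : the same for pairs, `p^(4 g₀ n)`;
* `genus_relation140`          : `12 (g + 1) = (q - 1) ψ(M) + 24 g₀` at rigid good levels
  (`g = g(qM)`, `g₀` = genus of the reduction of `X₀(M)` = `g(M)`);
* `count_num140`               : `12 s ≤ (q - 1) ψ(M)` (the shape of GUB) `⟹ 4 g₀ + 2 s ≤ 2 g + 2`,
  i.e. `a + 2 h ≤ c` with `a = 4 g₀`, `h = s - 1`, `c = 2 g`;
* `countNum140`, `countNum_neat140` : everything packaged (levels `q * M` and `M * q`).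

Everything is a combination of theorems on main: `Ribet.H937.natCard_torsion_jZero`,
`natCard_torsion_jZeroC`, `genusFF_eq_residue`, `Lib.RR.H80.genusFF_modular_eq_genusFormula`
(S24) and `S36.H29.genus_rigid_nat` (S20 numerics).
-/

set_option autoImplicit false

noncomputable section

namespace Fermat.Agent.S59.LoSqC.H140

open AlgebraicCurve ModularCurve

/-- `ℚ̄`. -/
local notation "Qb140" => AlgebraicClosure ℚ

/-- The genus of `X₀(N)` over `ℚ̄` (adelic genus of the function field). -/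
abbrev gBar140 (N : ℕ) : ℕ := genusFF Qb140 (modularFunctionFieldBar N)

/-- The genus of the reduction of `X₀(M)` at the place `A`. -/
abbrev gRes140 (A : ValuationSubring Qb140) (M : ℕ) : ℕ :=
  genusFF (IsLocalRing.ResidueField A)
    (modularFunctionFieldFullC (IsLocalRing.ResidueField A) M)

/-! ## Torsion counts for all exponents `p ^ n` -/

/-- `#J₀(N)(ℚ̄)[p^n] = p^(2 g n)`. -/
theorem card_torsion_jZero_pow140 (N : ℕ) [NeZero N] {p : ℕ} (hp : p ≠ 0) (n : ℕ) :
    Nat.card (Pic0.torsion Qb140 (modularFunctionFieldBar N) (p ^ n)) =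
      p ^ (2 * gBar140 N * n) := by
  rw [Fermat.Agent.Ribet.H937.natCard_torsion_jZero N (p ^ n) (pow_ne_zero n hp), ← pow_mul]
  congr 1
  ring

/-- `#Pic⁰(k(X₀(M)))[p^n] = p^(2 g₀ n)` for `q ∤ M p`. -/
theorem card_torsion_jZeroC_pow140 (M : ℕ) [NeZero M] {q : ℕ} [Fact q.Prime] (hqM : ¬ q ∣ M)
    (A : ValuationSubring Qb140) (hA : A.LiesOverPrime q) {p : ℕ} (hqp : ¬ q ∣ p) (n : ℕ) :
    Nat.card (Pic0.torsion (IsLocalRing.ResidueField A)
        (modularFunctionFieldFullC (IsLocalRing.ResidueField A) M) (p ^ n)) =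
      p ^ (2 * gRes140 A M * n) := by
  have hq : q.Prime := Fact.out
  rw [Fermat.Agent.Ribet.H937.natCard_torsion_jZeroC M hqM A hA (p ^ n)
    (fun h => hqp (hq.dvd_of_dvd_pow h)), ← pow_mul]
  congr 1
  ring

/-- Cardinality of a product of two subgroups. -/
theorem natCard_prod140 {G H : Type*} [AddGroup G] [AddGroup H] (S : AddSubgroup G)
    (T : AddSubgroup H) : Nat.card (S.prod T) = Nat.card S * Nat.card T := by
  rw [Nat.card_congr (AddSubgroup.prodEquiv S T).toEquiv, Nat.card_prod]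

/-- The pairs of `p^n`-torsion classes of the reduction: `p^(4 g₀ n)`. -/
theorem card_torsion_pair_pow140 (M : ℕ) [NeZero M] {q : ℕ} [Fact q.Prime] (hqM : ¬ q ∣ M)
    (A : ValuationSubring Qb140) (hA : A.LiesOverPrime q) {p : ℕ} (hqp : ¬ q ∣ p) (n : ℕ) :
    Nat.card ((Pic0.torsion (IsLocalRing.ResidueField A)
        (modularFunctionFieldFullC (IsLocalRing.ResidueField A) M) (p ^ n)).prod
      (Pic0.torsion (IsLocalRing.ResidueField A)
        (modularFunctionFieldFullC (IsLocalRing.ResidueField A) M) (p ^ n))) =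
      p ^ (4 * gRes140 A M * n) := by
  rw [natCard_prod140, card_torsion_jZeroC_pow140 M hqM A hA hqp n, ← pow_add]
  congr 1
  ring

/-- Membership in the product of the torsion subgroups, elementwise. -/
theorem mem_torsion_pair_iff140 {K F : Type*} [Field K] [Field F] [Algebra K F] {m : ℕ}
    {z : Pic0 K F × Pic0 K F} :
    z ∈ (Pic0.torsion K F m).prod (Pic0.torsion K F m) ↔ m • z.1 = 0 ∧ m • z.2 = 0 := by
  rw [AddSubgroup.mem_prod, Pic0.mem_torsion, Pic0.mem_torsion, natCast_zsmul, natCast_zsmul]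

/-! ## The genus relation -/

/-- The genus does not see the order of the factors of the level. -/
theorem gBar_mul_comm140 (M q : ℕ) : gBar140 (M * q) = gBar140 (q * M) :=
  congrArg gBar140 (Nat.mul_comm M q)

/-- The genus of the reduction of `X₀(M)` at a good place is the classical genus. -/
theorem gRes_eq_genusFormula140 (M : ℕ) [NeZero M] {q : ℕ} [Fact q.Prime] (hqM : ¬ q ∣ M)
    (hgood : Fermat.Agent.S37.Core.GoodLevel M q)
    (A : ValuationSubring Qb140) (hA : A.LiesOverPrime q) :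
    ((gRes140 A M : ℕ) : ℚ) = genusFormula M := by
  rw [← Fermat.Agent.Lib.RR.H80.genusFF_modular_eq_genusFormula M]
  exact congrArg (fun x : ℕ => (x : ℚ))
    (Fermat.Agent.Ribet.H937.genusFF_eq_residue M hqM hgood A hA).symm

/-- **GENUS RELATION**: `12 (g(qM) + 1) = (q - 1) ψ(M) + 24 g₀` at rigid good levels. -/
theorem genus_relation140 {M q r : ℕ} [NeZero M] [NeZero (q * M)] [Fact q.Prime]
    (hqM : ¬ q ∣ M) (hr : r.Prime) (hr12 : r % 12 = 11) (hrM : r ∣ M)
    (hgood : Fermat.Agent.S37.Core.GoodLevel M q)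
    (A : ValuationSubring Qb140) (hA : A.LiesOverPrime q) :
    12 * (gBar140 (q * M) + 1) = (q - 1) * dedekindPsi M + 24 * gRes140 A M :=
  Fermat.Agent.S36.H29.genus_rigid_nat (NeZero.ne M) Fact.out hqM hr hr12 hrM
    (Fermat.Agent.Lib.RR.H80.genusFF_modular_eq_genusFormula (q * M))
    (gRes_eq_genusFormula140 M hqM hgood A hA)

/-- **COUNT-NUM**, arithmetic core: the node bound `12 s ≤ (q - 1) ψ(M)` gives the exponent
inequality of the count, `4 g₀ + 2 s ≤ 2 g + 2`. -/
theorem count_num140 {M q r : ℕ} [NeZero M] [NeZero (q * M)] [Fact q.Prime]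
    (hqM : ¬ q ∣ M) (hr : r.Prime) (hr12 : r % 12 = 11) (hrM : r ∣ M)
    (hgood : Fermat.Agent.S37.Core.GoodLevel M q)
    (A : ValuationSubring Qb140) (hA : A.LiesOverPrime q)
    {s : ℕ} (hs : 12 * s ≤ (q - 1) * dedekindPsi M) :
    4 * gRes140 A M + 2 * s ≤ 2 * gBar140 (q * M) + 2 := by
  have h := genus_relation140 hqM hr hr12 hrM hgood A hA
  omega

/-- The same with `h = s - 1` (truncated subtraction): `a + 2 h ≤ c`. -/
theorem count_num_sub140 {M q r : ℕ} [NeZero M] [NeZero (q * M)] [Fact q.Prime]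
    (hqM : ¬ q ∣ M) (hr : r.Prime) (hr12 : r % 12 = 11) (hrM : r ∣ M)
    (hgood : Fermat.Agent.S37.Core.GoodLevel M q)
    (A : ValuationSubring Qb140) (hA : A.LiesOverPrime q)
    {s : ℕ} (hs1 : 1 ≤ s) (hs : 12 * s ≤ (q - 1) * dedekindPsi M) :
    4 * gRes140 A M + 2 * (s - 1) ≤ 2 * gBar140 (q * M) := by
  have h := count_num140 hqM hr hr12 hrM hgood A hA hs
  omega

/-! ## Neat levels -/

/-- A neat level is a good level. -/
theorem goodLevel_of_neatFor140 {M q : ℕ} (hq : q.Prime)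
    (h : Fermat.Agent.S36.Eng.NeatFor M q) : Fermat.Agent.S37.Core.GoodLevel M q := by
  obtain ⟨-, h4, h9⟩ := h
  by_cases h2 : q = 2
  · exact Or.inr (Or.inr ⟨h2, Dvd.dvd.trans (by norm_num) (h9 h2)⟩)
  · by_cases h3 : q = 3
    · exact Or.inr (Or.inl ⟨h3, Dvd.dvd.trans (by norm_num) (h4 h2)⟩)
    · left
      have h2' := hq.two_le
      by_contra hlt
      have hq4 : q = 4 := by omega
      rw [hq4] at hq
      exact absurd hq (by norm_num)

/-! ## The package -/

/-- **COUNT-NUM**, packaged at the level `q * M` (WALL-q convention): rigid good level. -/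
theorem countNum140 (M q r : ℕ) [NeZero M] [NeZero (q * M)] (hq : q.Prime) (hqM : ¬ q ∣ M)
    (hr : r.Prime) (hr12 : r % 12 = 11) (hrM : r ∣ M)
    (hgood : Fermat.Agent.S37.Core.GoodLevel M q)
    (A : ValuationSubring Qb140) (hA : A.LiesOverPrime q) (p : ℕ) (hp : p ≠ 0)
    (hqp : ¬ q ∣ p) :
    (∀ n : ℕ, Nat.card (Pic0.torsion Qb140 (modularFunctionFieldBar (q * M)) (p ^ n)) =
        p ^ (2 * gBar140 (q * M) * n)) ∧
    (∀ n : ℕ, Nat.card (Pic0.torsion (IsLocalRing.ResidueField A)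
        (modularFunctionFieldFullC (IsLocalRing.ResidueField A) M) (p ^ n)) =
        p ^ (2 * gRes140 A M * n)) ∧
    (∀ n : ℕ, Nat.card ((Pic0.torsion (IsLocalRing.ResidueField A)
        (modularFunctionFieldFullC (IsLocalRing.ResidueField A) M) (p ^ n)).prod
      (Pic0.torsion (IsLocalRing.ResidueField A)
        (modularFunctionFieldFullC (IsLocalRing.ResidueField A) M) (p ^ n))) =
        p ^ (4 * gRes140 A M * n)) ∧
    12 * (gBar140 (q * M) + 1) = (q - 1) * dedekindPsi M + 24 * gRes140 A M ∧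
    (∀ s : ℕ, 12 * s ≤ (q - 1) * dedekindPsi M →
      4 * gRes140 A M + 2 * s ≤ 2 * gBar140 (q * M) + 2) ∧
    (∀ s : ℕ, 1 ≤ s → 12 * s ≤ (q - 1) * dedekindPsi M →
      4 * gRes140 A M + 2 * (s - 1) ≤ 2 * gBar140 (q * M)) := by
  have : Fact q.Prime := ⟨hq⟩
  exact ⟨fun n => card_torsion_jZero_pow140 (q * M) hp n,
    fun n => card_torsion_jZeroC_pow140 M hqM A hA hqp n,
    fun n => card_torsion_pair_pow140 M hqM A hA hqp n,
    genus_relation140 hqM hr hr12 hrM hgood A hA,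
    fun _ hs => count_num140 hqM hr hr12 hrM hgood A hA hs,
    fun _ hs1 hs => count_num_sub140 hqM hr hr12 hrM hgood A hA hs1 hs⟩

/-- **COUNT-NUM** at NEAT levels (`S36.Eng.NeatFor M q`), level `q * M`. -/
theorem countNum_neat140 (M q : ℕ) [NeZero M] [NeZero (q * M)] (hq : q.Prime) (hqM : ¬ q ∣ M)
    (hneat : Fermat.Agent.S36.Eng.NeatFor M q)
    (A : ValuationSubring Qb140) (hA : A.LiesOverPrime q) (p : ℕ) (hp : p ≠ 0)
    (hqp : ¬ q ∣ p) :
    (∀ n : ℕ, Nat.card (Pic0.torsion Qb140 (modularFunctionFieldBar (q * M)) (p ^ n)) =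
        p ^ (2 * gBar140 (q * M) * n)) ∧
    (∀ n : ℕ, Nat.card (Pic0.torsion (IsLocalRing.ResidueField A)
        (modularFunctionFieldFullC (IsLocalRing.ResidueField A) M) (p ^ n)) =
        p ^ (2 * gRes140 A M * n)) ∧
    (∀ n : ℕ, Nat.card ((Pic0.torsion (IsLocalRing.ResidueField A)
        (modularFunctionFieldFullC (IsLocalRing.ResidueField A) M) (p ^ n)).prod
      (Pic0.torsion (IsLocalRing.ResidueField A)
        (modularFunctionFieldFullC (IsLocalRing.ResidueField A) M) (p ^ n))) =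
        p ^ (4 * gRes140 A M * n)) ∧
    12 * (gBar140 (q * M) + 1) = (q - 1) * dedekindPsi M + 24 * gRes140 A M ∧
    (∀ s : ℕ, 12 * s ≤ (q - 1) * dedekindPsi M →
      4 * gRes140 A M + 2 * s ≤ 2 * gBar140 (q * M) + 2) ∧
    (∀ s : ℕ, 1 ≤ s → 12 * s ≤ (q - 1) * dedekindPsi M →
      4 * gRes140 A M + 2 * (s - 1) ≤ 2 * gBar140 (q * M)) := by
  obtain ⟨r, hr, hr12, -, hrM⟩ := hneat.1
  exact countNum140 M q r hq hqM hr hr12 hrM (goodLevel_of_neatFor140 hq hneat) A hA p hp hqp

/-- The torsion count at the level `M * q` (S36 convention). -/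
theorem card_torsion_jZero_pow_comm140 (M q : ℕ) [NeZero (M * q)] {p : ℕ} (hp : p ≠ 0)
    (n : ℕ) :
    Nat.card (Pic0.torsion Qb140 (modularFunctionFieldBar (M * q)) (p ^ n)) =
      p ^ (2 * gBar140 (q * M) * n) := by
  rw [card_torsion_jZero_pow140 (M * q) hp n, gBar_mul_comm140]

end Fermat.Agent.S59.LoSqC.H140
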